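import Mathlib.GroupTheory.Transfer
import Mathlib.NumberTheory.ModularForms.CongruenceSubgroups
import Mathlib.LinearAlgebra.Matrix.FixedDetMatrices
import Mathlib.Tactic

/-!
# S16 lower bound, residue relation: matrix computations in `SL(2, ℤ)`
-/

set_option autoImplicit false

namespace Fermat.Agent.S16.LB.Residue

open Matrix Matrix.SpecialLinearGroup ModularGroup CongruenceSubgroup
open scoped MatrixGroups

theorem det_eq (g : SL(2, ℤ)) : g 0 0 * g 1 1 - g 0 1 * g 1 0 = 1 := by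
  have := g.det_coe
  rw [Matrix.det_fin_two] at this
  exact this

theorem S_pow_four : (S : SL(2, ℤ)) ^ 4 = 1 := by
  ext i j
  fin_cases i <;> fin_cases j <;>
    simp [pow_succ, coe_S, Matrix.mul_apply, Fin.sum_univ_two]

theorem ST_pow_six : ((S : SL(2, ℤ)) * T) ^ 6 = 1 := by
  ext i j
  fin_cases i <;> fin_cases j <;>
    simp [pow_succ, coe_S, coe_T, Matrix.mul_apply, Fin.sum_univ_two]

/-- Every homomorphism from `SL(2, ℤ)` to a commutative group kills `T ^ 12`. -/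
theorem hom_T_pow_twelve {A : Type*} [CommGroup A] (χ : SL(2, ℤ) →* A) : χ T ^ 12 = 1 := by
  have h1 : χ S ^ 4 = 1 := by rw [← map_pow, S_pow_four, map_one]
  have h2 : (χ S * χ T) ^ 6 = 1 := by rw [← map_mul, ← map_pow, ST_pow_six, map_one]
  have h3 : χ S ^ 6 * χ T ^ 6 = 1 := by rw [← mul_pow]; exact h2
  have h4 : χ S ^ 12 = 1 := by
    calc χ S ^ 12 = (χ S ^ 4) ^ 3 := by rw [← pow_mul]
      _ = 1 := by rw [h1, one_pow]
  calc χ T ^ 12 = χ S ^ 12 * χ T ^ 12 := by rw [h4, one_mul]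
    _ = (χ S ^ 6 * χ T ^ 6) ^ 2 := by rw [mul_pow, ← pow_mul, ← pow_mul]
    _ = 1 := by rw [h3, one_pow]

/-- entries of `x⁻¹ T^k x` -/
theorem conj_T_zpow_coe (x : SL(2, ℤ)) (k : ℤ) :
    ((x⁻¹ * T ^ k * x : SL(2, ℤ)) : Matrix (Fin 2) (Fin 2) ℤ) =
      !![1 + x 1 0 * x 1 1 * k, x 1 1 ^ 2 * k; -(x 1 0 ^ 2 * k), 1 - x 1 0 * x 1 1 * k] := by
  have hdet := det_eq x
  rw [coe_mul, coe_mul, coe_inv, coe_T_zpow, Matrix.adjugate_fin_two]
  ext i j
  fin_cases i <;> fin_cases j <;>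
    simp [Matrix.mul_apply, Fin.sum_univ_two] <;> first | ring1 | linear_combination hdet

/-- entries of `x T^k x⁻¹` -/
theorem conj'_T_zpow_coe (x : SL(2, ℤ)) (k : ℤ) :
    ((x * T ^ k * x⁻¹ : SL(2, ℤ)) : Matrix (Fin 2) (Fin 2) ℤ) =
      !![1 - x 0 0 * x 1 0 * k, x 0 0 ^ 2 * k; -(x 1 0 ^ 2 * k), 1 + x 0 0 * x 1 0 * k] := by
  have hdet := det_eq x
  rw [coe_mul, coe_mul, coe_inv, coe_T_zpow, Matrix.adjugate_fin_two]
  ext i j
  fin_cases i <;> fin_cases j <;>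
    simp [Matrix.mul_apply, Fin.sum_univ_two] <;> first | ring1 | linear_combination hdet

end Fermat.Agent.S16.LB.Residue
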