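import Fermat.Agent.S16.LB.Residue.SL2

/-!
# S16 lower bound, residue relation: parabolic elements of `SL(2, ℤ)` are conjugate to powers
of `T`
-/

set_option autoImplicit false

namespace Fermat.Agent.S16.LB.Residue

open Matrix Matrix.SpecialLinearGroup ModularGroup
open scoped MatrixGroups

/-- an element of `SL(2, ℤ)` with first column `(1, 0)` is a power of `T` -/
theorem eq_T_zpow_of_col {h : SL(2, ℤ)} (h00 : h 0 0 = 1) (h10 : h 1 0 = 0) :
    h = T ^ (h 0 1) := by
  have hdet := det_eq h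
  rw [h00, h10] at hdet
  have h11 : h 1 1 = 1 := by linarith
  apply Subtype.ext
  rw [coe_T_zpow]
  ext i j
  fin_cases i <;> fin_cases j <;> simp [h00, h10, h11]

/-- the matrix with first column `(x, -y)` and second column `(v, u)` -/
def colMat (x y u v : ℤ) (h : u * x + v * y = 1) : SL(2, ℤ) :=
  ⟨!![x, v; -y, u], by rw [Matrix.det_fin_two_of]; linarith⟩

theorem coe_colMat (x y u v : ℤ) (h : u * x + v * y = 1) :
    ((colMat x y u v h : SL(2, ℤ)) : Matrix (Fin 2) (Fin 2) ℤ) = !![x, v; -y, u] := rfl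

/-- An element of trace `2` of `SL(2, ℤ)` is conjugate to a power of `T`. -/
theorem exists_conj_of_trace_two (γ : SL(2, ℤ))
    (hγ : (γ : Matrix (Fin 2) (Fin 2) ℤ).trace = 2) :
    ∃ (x : SL(2, ℤ)) (k : ℤ), γ = x⁻¹ * T ^ k * x := by
  have hdet := det_eq γ
  rw [Matrix.trace_fin_two] at hγ
  by_cases hc : γ 1 0 = 0
  · -- upper triangular
    refine ⟨1, γ 0 1, ?_⟩
    rw [inv_one, one_mul, mul_one]
    rw [hc, mul_zero, sub_zero] at hdet
    have h00 : γ 0 0 = 1 := by
      rcases Int.eq_one_or_neg_one_of_mul_eq_one' hdet with h | h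
      · exact h.1
      · exfalso; rw [h.1, h.2] at hγ; norm_num at hγ
    exact eq_T_zpow_of_col h00 hc
  · -- `c ≠ 0`
    set t : ℤ := γ 1 1 - 1 with ht
    have hpos : 0 < Int.gcd t (γ 1 0) := Int.gcd_pos_of_ne_zero_right _ hc
    obtain ⟨x0, y0, hxy, hx0, hy0⟩ := Int.exists_gcd_one hpos
    set e : ℤ := (Int.gcd t (γ 1 0) : ℤ) with he
    have he0 : e ≠ 0 := by
      rw [he]; exact_mod_cast hpos.ne'
    have hcop : IsCoprime x0 y0 := Int.isCoprime_iff_gcd_eq_one.mpr hxy
    obtain ⟨u, v, huv⟩ := hcop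
    -- the fixed vector `(x0, -y0)`
    have hfix1 : γ 0 0 * x0 - γ 0 1 * y0 = x0 := by
      have : e * (γ 0 0 * x0 - γ 0 1 * y0 - x0) = 0 := by
        have h1 : x0 * e = t := hx0.symm
        have h2 : y0 * e = γ 1 0 := hy0.symm
        have : e * (γ 0 0 * x0 - γ 0 1 * y0 - x0)
            = γ 0 0 * (x0 * e) - γ 0 1 * (y0 * e) - x0 * e := by ring
        rw [this, h1, h2, ht]
        linear_combination hdet - hγ
      have := (mul_eq_zero.mp this).resolve_left he0
      linarith
    have hfix2 : γ 1 0 * x0 - γ 1 1 * y0 = -y0 := by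
      have : e * (γ 1 0 * x0 - γ 1 1 * y0 + y0) = 0 := by
        have h1 : x0 * e = t := hx0.symm
        have h2 : y0 * e = γ 1 0 := hy0.symm
        have : e * (γ 1 0 * x0 - γ 1 1 * y0 + y0)
            = γ 1 0 * (x0 * e) - γ 1 1 * (y0 * e) + y0 * e := by ring
        rw [this, h1, h2, ht]
        ring
      have := (mul_eq_zero.mp this).resolve_left he0
      linarith
    set g : SL(2, ℤ) := colMat x0 y0 u v huv with hg
    set h : SL(2, ℤ) := g⁻¹ * γ * g with hh
    have hcoe : ((h : SL(2, ℤ)) : Matrix (Fin 2) (Fin 2) ℤ)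
        = !![u, -v; y0, x0] * !![γ 0 0, γ 0 1; γ 1 0, γ 1 1] * !![x0, v; -y0, u] := by
      rw [hh, coe_mul, coe_mul, coe_inv, hg, coe_colMat, Matrix.adjugate_fin_two_of, neg_neg]
      congr 2
      exact Matrix.eta_fin_two _
    have h00 : h 0 0 = 1 := by
      rw [hcoe, Matrix.mul_fin_two, Matrix.mul_fin_two]
      simp only [of_apply, cons_val', cons_val_zero, cons_val_fin_one]
      linear_combination u * hfix1 - v * hfix2 + huv
    have h10 : h 1 0 = 0 := by
      rw [hcoe, Matrix.mul_fin_two, Matrix.mul_fin_two]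
      simp only [of_apply, cons_val', cons_val_zero, cons_val_one, cons_val_fin_one]
      linear_combination y0 * hfix1 + x0 * hfix2
    have hT := eq_T_zpow_of_col h00 h10
    refine ⟨g⁻¹, h 0 1, ?_⟩
    rw [inv_inv, ← hT, hh]
    group

end Fermat.Agent.S16.LB.Residue
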