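import Fermat.Agent.S16.LB.Residue.Cosets

/-!
# S16 lower bound, residue relation: the transfer from `Γ₀(p)` to `SL(2, ℤ)` at `T`

`transfer ϕ T = ϕ(T) · ϕ(S⁻¹ T^p S)` for every `ϕ : Γ₀(p) →* A`, and this is killed by `12`.
-/

set_option autoImplicit false

namespace Fermat.Agent.S16.LB.Residue

open Matrix Matrix.SpecialLinearGroup ModularGroup CongruenceSubgroup MulAction Subgroup
open scoped MatrixGroups

variable {p : ℕ}

local notation "Γ" => Gamma0 p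

theorem mk_eq_one_iff (x : SL(2, ℤ)) :
    ((x : SL(2, ℤ) ⧸ Γ) = ((1 : SL(2, ℤ)) : SL(2, ℤ) ⧸ Γ)) ↔ x ∈ Γ := by
  rw [QuotientGroup.eq]
  constructor
  · intro h
    have := Subgroup.inv_mem _ h
    simpa using this
  · intro h
    simpa using Subgroup.inv_mem _ h

theorem T_zpow_smul_one (k : ℤ) :
    (T : SL(2, ℤ)) ^ k • ((1 : SL(2, ℤ)) : SL(2, ℤ) ⧸ Γ) = ((1 : SL(2, ℤ)) : SL(2, ℤ) ⧸ Γ) := by
  show (((T : SL(2, ℤ)) ^ k * 1 : SL(2, ℤ)) : SL(2, ℤ) ⧸ Γ) = _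
  rw [mul_one, mk_eq_one_iff]
  exact T_zpow_mem p k

theorem T_zpow_S_not_mem [Fact p.Prime] (k : ℤ) : (T : SL(2, ℤ)) ^ k * S ∉ Γ := by
  rw [mem_Gamma0_iff_dvd]
  have : (((T : SL(2, ℤ)) ^ k * S : SL(2, ℤ)) : Matrix (Fin 2) (Fin 2) ℤ) 1 0 = 1 := by
    rw [SpecialLinearGroup.coe_mul, coe_T_zpow, coe_S]
    simp [Matrix.mul_apply, Fin.sum_univ_two]
  rw [this]
  intro h
  have := Int.le_of_dvd one_pos h
  have h2 : (1 : ℤ) < p := by exact_mod_cast (Fact.out : p.Prime).one_lt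
  omega

open scoped Classical in
/-- the minimal period of `T` on a coset and the corresponding factor of the transfer -/
theorem factor_eq [Fact p.Prime] {A : Type*} [CommGroup A] (ϕ : Γ →* A) (c : SL(2, ℤ) ⧸ Γ)
    (h : c.out⁻¹ * T ^ Function.minimalPeriod ((T : SL(2, ℤ)) • ·) c * c.out ∈ Γ) :
    ϕ ⟨c.out⁻¹ * T ^ Function.minimalPeriod ((T : SL(2, ℤ)) • ·) c * c.out, h⟩ =
      if c = ((1 : SL(2, ℤ)) : SL(2, ℤ) ⧸ Γ) then ϕ (tG p) else ϕ (vG p) := by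
  have hc : ((c.out : SL(2, ℤ)) : SL(2, ℤ) ⧸ Γ) = c := QuotientGroup.out_eq' c
  by_cases h1 : c = ((1 : SL(2, ℤ)) : SL(2, ℤ) ⧸ Γ)
  · rw [if_pos h1]
    have hx : c.out ∈ Γ := by rw [← mk_eq_one_iff, hc, h1]
    have hfix : Function.IsFixedPt ((T : SL(2, ℤ)) • ·) c := by
      show (T : SL(2, ℤ)) • c = c
      rw [h1]
      simpa using T_zpow_smul_one (p := p) 1
    have hn : Function.minimalPeriod ((T : SL(2, ℤ)) • ·) c = 1 :=
      Function.minimalPeriod_eq_one_iff_isFixedPt.mpr hfix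
    revert h
    rw [hn]
    intro h
    have := hom_conj_of_mem ϕ hx 1 (by simpa using h)
    simpa using this
  · rw [if_neg h1]
    have hx : c.out ∉ Γ := by
      intro hx
      apply h1
      rw [← hc, mk_eq_one_iff]
      exact hx
    -- `p` divides the minimal period
    have hdvd : (p : ℤ) ∣ (Function.minimalPeriod ((T : SL(2, ℤ)) • ·) c : ℤ) := by
      rw [← conj_T_zpow_mem_iff p hx, zpow_natCast]
      exact h
    -- the minimal period divides `p`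
    have hper : Function.IsPeriodicPt ((T : SL(2, ℤ)) • ·) p c := by
      show ((T : SL(2, ℤ)) • ·)^[p] c = c
      rw [smul_iterate]
      show (T : SL(2, ℤ)) ^ p • c = c
      conv_lhs => rw [← hc]
      conv_rhs => rw [← hc]
      show (((T : SL(2, ℤ)) ^ p * c.out : SL(2, ℤ)) : SL(2, ℤ) ⧸ Γ) = _
      rw [QuotientGroup.eq]
      have h3 : c.out⁻¹ * T ^ (-(p : ℤ)) * c.out ∈ Γ :=
        (conj_T_zpow_mem_iff p hx _).mpr (by simp)
      have e : ((T : SL(2, ℤ)) ^ p * c.out)⁻¹ * c.out = c.out⁻¹ * T ^ (-(p : ℤ)) * c.out := by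
        rw [_root_.mul_inv_rev, zpow_neg, zpow_natCast]
      rw [e]
      exact h3
    have hn : Function.minimalPeriod ((T : SL(2, ℤ)) • ·) c = p := by
      apply Nat.dvd_antisymm hper.minimalPeriod_dvd
      exact_mod_cast hdvd
    revert h
    rw [hn]
    intro h
    have := hom_conj_of_not_mem ϕ hx 1 (by simpa using h)
    simpa using this

/-- **The transfer at `T`.** -/
theorem transfer_T [Fact p.Prime] {A : Type*} [CommGroup A] (ϕ : Γ →* A) :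
    haveI : NeZero p := ⟨(Fact.out : p.Prime).ne_zero⟩
    MonoidHom.transfer ϕ (T : SL(2, ℤ)) = ϕ (tG p) * ϕ (vG p) := by
  classical
  have : NeZero p := ⟨(Fact.out : p.Prime).ne_zero⟩
  have : Finite (SL(2, ℤ) ⧸ Γ) := Subgroup.finite_quotient_of_finiteIndex
  haveI : Fintype (Quotient (orbitRel (zpowers (T : SL(2, ℤ))) (SL(2, ℤ) ⧸ Γ))) :=
    Fintype.ofFinite _
  rw [MonoidHom.transfer_eq_prod_quotient_orbitRel_zpowers_quot]
  simp only [factor_eq]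
  set q0 : Quotient (orbitRel (zpowers (T : SL(2, ℤ))) (SL(2, ℤ) ⧸ Γ)) :=
    Quotient.mk'' ((1 : SL(2, ℤ)) : SL(2, ℤ) ⧸ Γ) with hq0
  set q1 : Quotient (orbitRel (zpowers (T : SL(2, ℤ))) (SL(2, ℤ) ⧸ Γ)) :=
    Quotient.mk'' ((S : SL(2, ℤ)) : SL(2, ℤ) ⧸ Γ) with hq1
  -- the orbit of the trivial coset
  have hout0 : q0.out = ((1 : SL(2, ℤ)) : SL(2, ℤ) ⧸ Γ) := by
    have h : q0.out ∈ orbit (zpowers (T : SL(2, ℤ))) (((1 : SL(2, ℤ)) : SL(2, ℤ) ⧸ Γ)) := by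
      rw [← orbitRel_apply]
      exact Quotient.exact (Quotient.out_eq q0)
    obtain ⟨⟨t, ht⟩, hto⟩ := h
    obtain ⟨k, rfl⟩ := Subgroup.mem_zpowers_iff.mp ht
    rw [← hto]
    exact T_zpow_smul_one k
  have hout1 : q1.out ≠ ((1 : SL(2, ℤ)) : SL(2, ℤ) ⧸ Γ) := by
    have h : q1.out ∈ orbit (zpowers (T : SL(2, ℤ))) (((S : SL(2, ℤ)) : SL(2, ℤ) ⧸ Γ)) := by
      rw [← orbitRel_apply]
      exact Quotient.exact (Quotient.out_eq q1)
    obtain ⟨⟨t, ht⟩, hto⟩ := h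
    obtain ⟨k, rfl⟩ := Subgroup.mem_zpowers_iff.mp ht
    rw [← hto]
    show ((((T : SL(2, ℤ)) ^ k * S : SL(2, ℤ)) : SL(2, ℤ) ⧸ Γ)) ≠ _
    rw [Ne, mk_eq_one_iff]
    exact T_zpow_S_not_mem k
  have hne : q0 ≠ q1 := by
    intro h
    apply hout1
    rw [← h, hout0]
  have hall : ∀ q : Quotient (orbitRel (zpowers (T : SL(2, ℤ))) (SL(2, ℤ) ⧸ Γ)),
      q = q0 ∨ q = q1 := by
    intro q
    by_cases h : q.out = ((1 : SL(2, ℤ)) : SL(2, ℤ) ⧸ Γ)
    · left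
      rw [← Quotient.out_eq q, h]
    · right
      have hc : ((q.out.out : SL(2, ℤ)) : SL(2, ℤ) ⧸ Γ) = q.out := QuotientGroup.out_eq' q.out
      have hx : q.out.out ∉ Γ := by
        intro hx
        apply h
        rw [← hc, mk_eq_one_iff]
        exact hx
      obtain ⟨j, hj⟩ := exists_T_zpow_S p hx
      rw [← Quotient.out_eq q]
      apply Quotient.sound
      show orbitRel _ _ _ _
      rw [orbitRel_apply]
      refine ⟨⟨(T : SL(2, ℤ)) ^ j, Subgroup.zpow_mem_zpowers _ _⟩, ?_⟩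
      show (((T : SL(2, ℤ)) ^ j * S : SL(2, ℤ)) : SL(2, ℤ) ⧸ Γ) = q.out
      rw [← hc, QuotientGroup.eq]
      have e : ((T : SL(2, ℤ)) ^ j * S)⁻¹ * q.out.out = S⁻¹ * T ^ (-j) * q.out.out := by
        rw [_root_.mul_inv_rev, zpow_neg]
      rw [e]
      exact hj
  have huniv : (Finset.univ : Finset (Quotient (orbitRel (zpowers (T : SL(2, ℤ)))
      (SL(2, ℤ) ⧸ Γ)))) = {q0, q1} := by
    ext q
    simp only [Finset.mem_univ, Finset.mem_insert, Finset.mem_singleton, true_iff]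
    exact hall q
  rw [huniv, Finset.prod_pair hne, if_pos hout0, if_neg hout1]

/-- `ϕ(T) · ϕ(S⁻¹ T^p S)` is killed by `12`. -/
theorem hom_T_mul_hom_V_pow [Fact p.Prime] {A : Type*} [CommGroup A] (ϕ : Γ →* A) :
    (ϕ (tG p) * ϕ (vG p)) ^ 12 = 1 := by
  have : NeZero p := ⟨(Fact.out : p.Prime).ne_zero⟩
  rw [← transfer_T ϕ]
  exact hom_T_pow_twelve _

end Fermat.Agent.S16.LB.Residue
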