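import Fermat.Agent.S16.LB.Residue.SL2

/-!
# S16 lower bound, residue relation: cosets of `Γ₀(p)` and conjugates of powers of `T`
-/

set_option autoImplicit false

namespace Fermat.Agent.S16.LB.Residue

open Matrix Matrix.SpecialLinearGroup ModularGroup CongruenceSubgroup
open scoped MatrixGroups

variable (p : ℕ)

theorem mem_Gamma0_iff_dvd {g : SL(2, ℤ)} : g ∈ Gamma0 p ↔ (p : ℤ) ∣ g 1 0 := by
  rw [Gamma0_mem]
  exact ZMod.intCast_zmod_eq_zero_iff_dvd _ _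

theorem T_zpow_mem (k : ℤ) : (T : SL(2, ℤ)) ^ k ∈ Gamma0 p := by
  rw [mem_Gamma0_iff_dvd, coe_T_zpow]
  simp

theorem T_mem : (T : SL(2, ℤ)) ∈ Gamma0 p := by
  have := T_zpow_mem p 1
  rwa [zpow_one] at this

/-- `T` as an element of `Γ₀(p)` -/
def tG : Gamma0 p := ⟨T, T_mem p⟩

/-- `V = S⁻¹ T^p S = (1 0; -p 1)` -/
def vSL : SL(2, ℤ) := S⁻¹ * T ^ (p : ℤ) * S

theorem coe_vSL : ((vSL p : SL(2, ℤ)) : Matrix (Fin 2) (Fin 2) ℤ) = !![1, 0; -(p : ℤ), 1] := by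
  unfold vSL
  rw [conj_T_zpow_coe]
  simp [coe_S]

theorem vSL_mem : vSL p ∈ Gamma0 p := by
  rw [mem_Gamma0_iff_dvd, coe_vSL]
  simp

/-- `V` as an element of `Γ₀(p)` -/
def vG : Gamma0 p := ⟨vSL p, vSL_mem p⟩

theorem conj_T_zpow_mem_iff [Fact p.Prime] {x : SL(2, ℤ)} (hx : x ∉ Gamma0 p) (k : ℤ) :
    x⁻¹ * T ^ k * x ∈ Gamma0 p ↔ (p : ℤ) ∣ k := by
  rw [mem_Gamma0_iff_dvd] at hx ⊢
  rw [conj_T_zpow_coe]
  simp only [of_apply, cons_val', cons_val_zero, cons_val_one, cons_val_fin_one]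
  have hp : Prime (p : ℤ) := Nat.prime_iff_prime_int.mp Fact.out
  rw [dvd_neg]
  constructor
  · intro h
    rcases hp.dvd_or_dvd h with h1 | h1
    · exact absurd (hp.dvd_of_dvd_pow h1) hx
    · exact h1
  · intro h
    exact dvd_mul_of_dvd_right h _

/-- Every coset outside `Γ₀(p)` is of the form `T^j S Γ₀(p)`. -/
theorem exists_T_zpow_S [Fact p.Prime] {x : SL(2, ℤ)} (hx : x ∉ Gamma0 p) :
    ∃ j : ℤ, S⁻¹ * T ^ (-j) * x ∈ Gamma0 p := by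
  rw [mem_Gamma0_iff_dvd] at hx
  have hp : Prime (p : ℤ) := Nat.prime_iff_prime_int.mp Fact.out
  have hcop : IsCoprime (x 1 0) (p : ℤ) := by
    rw [isCoprime_comm]
    exact (Prime.coprime_iff_not_dvd hp).mpr hx
  obtain ⟨u, v, huv⟩ := hcop
  refine ⟨x 0 0 * u, ?_⟩
  rw [mem_Gamma0_iff_dvd]
  have : ((S⁻¹ * T ^ (-(x 0 0 * u)) * x : SL(2, ℤ)) : Matrix (Fin 2) (Fin 2) ℤ) 1 0
      = -(x 0 0) + x 0 0 * u * x 1 0 := by
    rw [coe_mul, coe_mul, coe_inv, coe_T_zpow, coe_S, Matrix.adjugate_fin_two]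
    simp [Matrix.mul_apply, Fin.sum_univ_two]
  rw [this]
  refine ⟨-(x 0 0 * v), ?_⟩
  linear_combination (x 0 0) * huv

section Hom

variable {p}
variable {A : Type*} [CommGroup A] (ϕ : Gamma0 p →* A)

/-- conjugates of powers of `T` by elements of `Γ₀(p)` -/
theorem hom_conj_of_mem {x : SL(2, ℤ)} (hx : x ∈ Gamma0 p) (k : ℤ)
    (h : x⁻¹ * T ^ k * x ∈ Gamma0 p) : ϕ ⟨x⁻¹ * T ^ k * x, h⟩ = ϕ (tG p) ^ k := by
  have e : (⟨x⁻¹ * T ^ k * x, h⟩ : Gamma0 p) = (⟨x, hx⟩ : Gamma0 p)⁻¹ * (tG p) ^ k * ⟨x, hx⟩ := by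
    apply Subtype.ext
    simp [tG]
  rw [e, map_mul, map_mul, map_inv, map_zpow, mul_comm, mul_inv_cancel_left]

/-- conjugates of powers of `T` by elements outside `Γ₀(p)` -/
theorem hom_conj_of_not_mem [Fact p.Prime] {x : SL(2, ℤ)} (hx : x ∉ Gamma0 p) (k : ℤ)
    (h : x⁻¹ * T ^ ((p : ℤ) * k) * x ∈ Gamma0 p) :
    ϕ ⟨x⁻¹ * T ^ ((p : ℤ) * k) * x, h⟩ = ϕ (vG p) ^ k := by
  obtain ⟨j, hj⟩ := exists_T_zpow_S p hx
  have e : (⟨x⁻¹ * T ^ ((p : ℤ) * k) * x, h⟩ : Gamma0 p)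
      = (⟨_, hj⟩ : Gamma0 p)⁻¹ * (vG p) ^ k * ⟨_, hj⟩ := by
    apply Subtype.ext
    simp only [Subgroup.coe_mul, Subgroup.coe_inv, Subgroup.coe_zpow, vG, vSL]
    have hV : (S⁻¹ * T ^ (p : ℤ) * S : SL(2, ℤ)) ^ k = S⁻¹ * T ^ ((p : ℤ) * k) * S := by
      have h1 := conj_zpow (a := (S⁻¹ : SL(2, ℤ))) (b := T ^ (p : ℤ)) (i := k)
      rw [inv_inv] at h1
      rw [h1, ← zpow_mul]
    rw [hV]
    have hcomm : (T : SL(2, ℤ)) ^ (-j) * T ^ ((p : ℤ) * k) * T ^ j = T ^ ((p : ℤ) * k) := by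
      rw [← zpow_add, ← zpow_add]; congr 1; ring
    calc x⁻¹ * T ^ ((p : ℤ) * k) * x
        = x⁻¹ * (T ^ (-j) * T ^ ((p : ℤ) * k) * T ^ j)⁻¹⁻¹ * x := by rw [hcomm, inv_inv]
      _ = (S⁻¹ * T ^ (-j) * x)⁻¹ * (S⁻¹ * T ^ ((p : ℤ) * k) * S) * (S⁻¹ * T ^ (-j) * x) := by
          rw [inv_inv, ← hcomm]
          simp only [zpow_neg]
          group
  rw [e, map_mul, map_mul, map_inv, map_zpow, mul_comm, mul_inv_cancel_left]

end Hom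

end Fermat.Agent.S16.LB.Residue
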